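import Fermat.Agent.AV.Scheme.Red

/-!
# Fields of definition of field valued points
-/

set_option autoImplicit false

noncomputable section

open CategoryTheory CategoryTheory.Limits AlgebraicGeometry NeronModelInfra GoodReductionJacobian
open IsLocalRing

namespace Fermat.Agent.AV.AbVar

universe u

variable {K : Type u} [Field K] (V : AbVar K) {L L' : Type u} [Field L] [Algebra K L] [Field L']
  [Algebra K L']

/-- Residue field data of a field valued point. -/
lemma exists_residueHom (x : V.Point L) :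
    ∃ (p : V.A) (h : V.A.residueField p ⟶ CommRingCat.of L),
      x.1 = AlgebraicGeometry.Spec.map h ≫ V.A.fromSpecResidueField p :=
  ⟨_, V.A.descResidueField (Scheme.stalkClosedPointTo x.1),
    (Scheme.descResidueField_stalkClosedPointTo_fromSpecResidueField L V.A x.1).symm⟩

omit [Algebra K L] in
lemma range_hom_eq {p q : V.A} {h : V.A.residueField p ⟶ CommRingCat.of L}
    {k : V.A.residueField q ⟶ CommRingCat.of L}
    (e : AlgebraicGeometry.Spec.map h ≫ V.A.fromSpecResidueField p =
      AlgebraicGeometry.Spec.map k ≫ V.A.fromSpecResidueField q) :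
    ∃ c : p = q, h = (V.A.residueFieldCongr c).hom ≫ k := by
  have h1 := (Scheme.SpecToEquivOfField L V.A).symm.injective
    (a₁ := ⟨p, h⟩) (a₂ := ⟨q, k⟩) e
  exact (Scheme.SpecToEquivOfField_eq_iff).mp h1

lemma range_stalk_eq {p : V.A} {h : V.A.residueField p ⟶ CommRingCat.of L} {x : V.Point L}
    (e : x.1 = AlgebraicGeometry.Spec.map h ≫ V.A.fromSpecResidueField p) :
    Set.range (Scheme.stalkClosedPointTo x.1).hom = Set.range h.hom := by
  obtain ⟨c, hc⟩ := V.range_hom_eq
    ((Scheme.descResidueField_stalkClosedPointTo_fromSpecResidueField L V.A x.1).trans e)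
  rw [← Scheme.residue_descResidueField (Scheme.stalkClosedPointTo x.1), CommRingCat.hom_comp,
    RingHom.coe_comp, (Scheme.residue_surjective _ _).range_comp, hc, CommRingCat.hom_comp,
    RingHom.coe_comp]
  exact ((ConcreteCategory.bijective_of_isIso (V.A.residueFieldCongr c).hom).2).range_comp _

lemma imgField_eq {p : V.A} {h : V.A.residueField p ⟶ CommRingCat.of L} {x : V.Point L}
    (e : x.1 = AlgebraicGeometry.Spec.map h ≫ V.A.fromSpecResidueField p) :
    V.imgField x = IntermediateField.adjoin K (Set.range h.hom) := by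
  rw [imgField, V.range_stalk_eq e]

lemma imgField_pull (ψ : L →ₐ[K] L') (x : V.Point L) :
    V.imgField (V.pull ψ x) = (V.imgField x).map ψ := by
  obtain ⟨p, h, e⟩ := V.exists_residueHom x
  rw [V.imgField_eq e, IntermediateField.adjoin_map,
    V.imgField_eq (p := p) (h := h ≫ CommRingCat.ofHom ψ.toRingHom) (x := V.pull ψ x)
      (by rw [pull_coe, e, AlgebraicGeometry.Spec.map_comp, Category.assoc])]
  rw [CommRingCat.hom_comp, RingHom.coe_comp, Set.range_comp]
  rfl

lemma eqOn_imgField (σ τ : L →ₐ[K] L') (x : V.Point L) (hx : V.pull σ x = V.pull τ x) :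
    ∀ z ∈ V.imgField x, σ z = τ z := by
  obtain ⟨p, h, e⟩ := V.exists_residueHom x
  have e1 : AlgebraicGeometry.Spec.map (h ≫ CommRingCat.ofHom σ.toRingHom) ≫
      V.A.fromSpecResidueField p = AlgebraicGeometry.Spec.map (h ≫ CommRingCat.ofHom τ.toRingHom) ≫
      V.A.fromSpecResidueField p := by
    have := congrArg Subtype.val hx
    rw [pull_coe, pull_coe, e, ← Category.assoc, ← Category.assoc,
      ← AlgebraicGeometry.Spec.map_comp, ← AlgebraicGeometry.Spec.map_comp] at this
    exact this
  obtain ⟨c, hc⟩ := V.range_hom_eq e1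
  rw [Scheme.residueFieldCongr_refl] at hc
  intro z hz
  rw [V.imgField_eq e] at hz
  induction hz using IntermediateField.adjoin_induction with
  | mem w hw =>
      obtain ⟨r, rfl⟩ := hw
      simpa using congrArg (fun k => k.hom r) hc
  | algebraMap c => rw [AlgHom.commutes, AlgHom.commutes]
  | add a b _ _ ha hb => rw [map_add, map_add, ha, hb]
  | inv a _ ha => rw [map_inv₀, map_inv₀, ha]
  | mul a b _ _ ha hb => rw [map_mul, map_mul, ha, hb]

lemma exists_pull_imgField (x : V.Point L) :
    ∃ y : V.Point (V.imgField x), V.pull (V.imgField x).val y = x := by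
  obtain ⟨p, h, e⟩ := V.exists_residueHom x
  have hm : ∀ r, h.hom r ∈ V.imgField x := fun r => by
    rw [V.imgField_eq e]; exact IntermediateField.subset_adjoin K _ ⟨r, rfl⟩
  let h' : V.A.residueField p ⟶ CommRingCat.of (V.imgField x) :=
    CommRingCat.ofHom (h.hom.codRestrict (V.imgField x).toSubfield.toSubring hm)
  have hval : h' ≫ CommRingCat.ofHom (V.imgField x).val.toRingHom = h := rfl
  have hepi : Epi (AlgebraicGeometry.Spec.map
      (CommRingCat.ofHom (V.imgField x).val.toRingHom)) := by
    have : AlgebraicGeometry.Surjective (AlgebraicGeometry.Spec.map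
        (CommRingCat.ofHom (V.imgField x).val.toRingHom)) :=
      ⟨fun q => ⟨closedPoint L, Subsingleton.elim _ _⟩⟩
    have : Flat (AlgebraicGeometry.Spec.map (CommRingCat.ofHom (V.imgField x).val.toRingHom)) := by
      rw [HasRingHomProperty.Spec_iff (P := @Flat)]
      exact RingHom.flat_algebraMap_iff.mpr (inferInstance : Module.Flat (V.imgField x) L)
    infer_instance
  have hy : (AlgebraicGeometry.Spec.map h' ≫ V.A.fromSpecResidueField p) ≫ V.f =
      specStr K (V.imgField x) := by
    rw [← cancel_epi (AlgebraicGeometry.Spec.map (CommRingCat.ofHom (V.imgField x).val.toRingHom)),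
      specMap_str, Category.assoc, ← AlgebraicGeometry.Spec.map_comp_assoc, hval,
      ← Category.assoc, ← e, x.2]
  exact ⟨⟨_, hy⟩, Subtype.ext (by
    rw [pull_coe, e, ← AlgebraicGeometry.Spec.map_comp_assoc, hval])⟩

section Chart

variable {U : V.A.Opens}

/-- The sections over an affine open as an algebra. -/
@[reducible]
def chartAlgebra (U : V.A.Opens) : Algebra K Γ(V.A, U) :=
  ((Scheme.ΓSpecIso (CommRingCat.of K)).inv ≫ V.f.appLE ⊤ U (by simp)).hom.toAlgebra

/-- The point of a homomorphism on an affine open. -/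
lemma chart_str (hU : IsAffineOpen U) {R : Type u} [CommRing R] [Algebra K R]
    (a : letI := V.chartAlgebra U; Γ(V.A, U) →ₐ[K] R) :
    (AlgebraicGeometry.Spec.map (CommRingCat.ofHom (letI := V.chartAlgebra U; a.toRingHom)) ≫
      hU.fromSpec) ≫ V.f = specStr K R := by
  let := V.chartAlgebra U
  have h1 : hU.fromSpec ≫ V.f = AlgebraicGeometry.Spec.map (V.f.appLE ⊤ U (by simp)) ≫
      (isAffineOpen_top (Spec (CommRingCat.of K))).fromSpec :=
    ((isAffineOpen_top _).SpecMap_appLE_fromSpec V.f hU (by simp)).symm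
  rw [Category.assoc, h1, IsAffineOpen.fromSpec_top, Scheme.isoSpec_Spec_inv,
    ← AlgebraicGeometry.Spec.map_comp, ← AlgebraicGeometry.Spec.map_comp]
  refine congrArg AlgebraicGeometry.Spec.map (CommRingCat.hom_ext ?_)
  exact a.comp_algebraMap

/-- The point of a homomorphism on an affine open. -/
def ofChart (hU : IsAffineOpen U) {R : Type u} [CommRing R] [Algebra K R]
    (a : letI := V.chartAlgebra U; Γ(V.A, U) →ₐ[K] R) : V.Point R :=
  ⟨_, V.chart_str hU a⟩

lemma ofChart_coe (hU : IsAffineOpen U) {R : Type u} [CommRing R] [Algebra K R]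
    (a : letI := V.chartAlgebra U; Γ(V.A, U) →ₐ[K] R) :
    (V.ofChart hU a).1 = AlgebraicGeometry.Spec.map
      (CommRingCat.ofHom (letI := V.chartAlgebra U; a.toRingHom)) ≫ hU.fromSpec := rfl

lemma ofChart_injective (hU : IsAffineOpen U) {R : Type u} [CommRing R] [Algebra K R] :
    Function.Injective (V.ofChart hU (R := R)) := by
  let := V.chartAlgebra U
  intro a b h
  have h1 := congrArg Subtype.val h
  rw [ofChart_coe, ofChart_coe, cancel_mono] at h1
  exact AlgHom.ext fun z => congrArg (fun k => k.hom z) (AlgebraicGeometry.Spec.map_injective h1)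

lemma pull_ofChart (hU : IsAffineOpen U) {R R' : Type u} [CommRing R] [Algebra K R] [CommRing R']
    [Algebra K R'] (φ : R →ₐ[K] R') (a : letI := V.chartAlgebra U; Γ(V.A, U) →ₐ[K] R) :
    V.pull φ (V.ofChart hU a) =
      V.ofChart hU (letI := V.chartAlgebra U; φ.comp a) := by
  refine Subtype.ext ?_
  rw [pull_coe, ofChart_coe, ofChart_coe, ← AlgebraicGeometry.Spec.map_comp_assoc,
    ← CommRingCat.ofHom_comp]
  rfl

/-- A point landing in an affine open comes from a homomorphism on it. -/
lemma exists_ofChart (hU : IsAffineOpen U) {R : Type u} [CommRing R] [Algebra K R]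
    (x : V.Point R) (hx : Set.range x.1 ⊆ (U : Set V.A)) :
    ∃ a : (letI := V.chartAlgebra U; Γ(V.A, U) →ₐ[K] R), V.ofChart hU a = x := by
  let := V.chartAlgebra U
  let l := IsOpenImmersion.lift hU.fromSpec x.1 (by rw [hU.range_fromSpec]; exact hx)
  obtain ⟨a, ha⟩ := AlgebraicGeometry.Spec.map_surjective l
  have hl : AlgebraicGeometry.Spec.map a ≫ hU.fromSpec = x.1 := by
    rw [ha]; exact IsOpenImmersion.lift_fac _ _ _
  refine ⟨{ a.hom with commutes' := fun c => ?_ }, Subtype.ext hl⟩
  have h1 : hU.fromSpec ≫ V.f = AlgebraicGeometry.Spec.map (V.f.appLE ⊤ U (by simp)) ≫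
      (isAffineOpen_top (Spec (CommRingCat.of K))).fromSpec :=
    ((isAffineOpen_top _).SpecMap_appLE_fromSpec V.f hU (by simp)).symm
  have h2 := x.2
  rw [← hl, Category.assoc, h1, IsAffineOpen.fromSpec_top, Scheme.isoSpec_Spec_inv,
    ← AlgebraicGeometry.Spec.map_comp, ← AlgebraicGeometry.Spec.map_comp] at h2
  exact congrArg (fun k => k.hom c) (AlgebraicGeometry.Spec.map_injective h2)

/-- The field of definition of a chart point is generated by its coordinates. -/
lemma imgField_ofChart (hU : IsAffineOpen U) (a : letI := V.chartAlgebra U; Γ(V.A, U) →ₐ[K] L) :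
    V.imgField (V.ofChart hU a) =
      IntermediateField.adjoin K (Set.range (letI := V.chartAlgebra U; ⇑a)) := by
  let := V.chartAlgebra U
  set x := V.ofChart hU a with hxdef
  have hp : x.1 (closedPoint L) ∈ U := by
    rw [hxdef, ofChart_coe, Scheme.Hom.comp_apply]
    exact SetLike.mem_coe.mp (hU.range_fromSpec ▸ Set.mem_range_self _)
  set s := Scheme.stalkClosedPointTo x.1 with hs
  set gm := V.A.presheaf.germ U _ hp with hgm
  have hl : AlgebraicGeometry.Spec.map (gm ≫ s) ≫ hU.fromSpec = x.1 := by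
    rw [AlgebraicGeometry.Spec.map_comp, Category.assoc]
    exact (congrArg (AlgebraicGeometry.Spec.map s ≫ ·)
      (hU.fromSpecStalk_eq_fromSpecStalk hp)).trans
      (Scheme.Spec_stalkClosedPointTo_fromSpecStalk x.1)
  have hgs : gm ≫ s = CommRingCat.ofHom a.toRingHom :=
    AlgebraicGeometry.Spec.map_injective ((cancel_mono hU.fromSpec).mp
        (hl.trans (V.ofChart_coe hU a)))
  have happ : ∀ r, s.hom (gm.hom r) = a r := fun r => congrArg (fun k => k.hom r) hgs
  rw [imgField]
  refine le_antisymm (IntermediateField.adjoin_le_iff.mpr ?_)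
      (IntermediateField.adjoin.mono K _ _ ?_)
  · rintro _ ⟨w, rfl⟩
    obtain ⟨W, hW, r, rfl⟩ := TopCat.Presheaf.exists_germ_eq V.A.presheaf w
    obtain ⟨f, -, hf⟩ : ∃ f : Γ(V.A, U), V.A.basicOpen f ≤ W ∧ x.1 (closedPoint L) ∈ V.A.basicOpen f
        :=
      hU.exists_basicOpen_le ⟨_, hW⟩ hp
    have := hU.isLocalization_stalk ⟨_, hp⟩
    let : Algebra Γ(V.A, U) (V.A.presheaf.stalk (x.1 (closedPoint L))) := gm.hom.toAlgebra
    obtain ⟨⟨r', s'⟩, hr'⟩ := IsLocalization.surj (hU.primeIdealOf ⟨_, hp⟩).asIdeal.primeCompl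
      (V.A.presheaf.germ W _ hW r)
    have hu : IsUnit (s.hom (gm.hom s'.1)) :=
      (IsLocalization.map_units (V.A.presheaf.stalk (x.1 (closedPoint L))) s').map s.hom
    have h3 : s.hom (V.A.presheaf.germ W _ hW r) * a s'.1 = a r' := by
      rw [← happ, ← happ, ← map_mul]; exact congrArg s.hom hr'
    rw [happ] at hu
    rw [show s.hom (V.A.presheaf.germ W _ hW r) = a r' / a s'.1 from
      eq_div_of_mul_eq hu.ne_zero h3]
    exact div_mem (IntermediateField.subset_adjoin K _ ⟨r', rfl⟩)
      (IntermediateField.subset_adjoin K _ ⟨s'.1, rfl⟩)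
  · rintro _ ⟨r, rfl⟩
    exact ⟨gm.hom r, happ r⟩

lemma imgField_fg (x : V.Point L) : (V.imgField x).FG := by
  classical
  obtain ⟨_, ⟨U, hU, rfl⟩, hx, -⟩ := V.A.isBasis_affineOpens.exists_subset_of_mem_open
    (Set.mem_univ (x.1 (closedPoint L))) isOpen_univ
  obtain ⟨a, rfl⟩ := V.exists_ofChart hU x (by
    rintro _ ⟨q, rfl⟩; rw [Subsingleton.elim q (closedPoint L)]; exact hx)
  let := V.chartAlgebra U
  have hft : Algebra.FiniteType K Γ(V.A, U) :=
    RingHom.finiteType_algebraMap.mp (RingHom.FiniteType.comp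
      (V.f.finiteType_appLE (isAffineOpen_top _) hU (by simp))
      (RingHom.FiniteType.of_surjective _
        (ConcreteCategory.bijective_of_isIso (Scheme.ΓSpecIso (CommRingCat.of K)).inv).2))
  obtain ⟨S, hS⟩ := hft.out
  refine ⟨S.image a, le_antisymm ?_ ?_⟩
  · rw [V.imgField_ofChart]
    refine IntermediateField.adjoin.mono K _ _ ?_
    rw [Finset.coe_image]
    exact Set.image_subset_range _ _
  · rw [V.imgField_ofChart, IntermediateField.adjoin_le_iff]
    rintro _ ⟨r, rfl⟩
    refine IntermediateField.algebra_adjoin_le_adjoin K _ ?_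
    rw [Finset.coe_image, ← AlgHom.map_adjoin, hS, Algebra.map_top]
    exact ⟨r, rfl⟩

end Chart

end Fermat.Agent.AV.AbVar

end
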