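import Fermat.Agent.AV.Scheme.Basic

/-!
# Torsion sections as torsion points with values in the base field
-/

set_option autoImplicit false

noncomputable section

open CategoryTheory CategoryTheory.Limits AlgebraicGeometry NeronModelInfra GoodReductionJacobian

namespace Fermat.Agent.AV

universe u

variable {K : Type u} [Field K]

/-- The bundle of an abelian scheme over a field. -/
def AbVar.ofBundle {A : AlgebraicGeometry.Scheme.{u}} {f : A ⟶ Spec (CommRingCat.of K)}
    (L : RelativeGroupLaw K f) (hc : L.IsCommutative) (hA : AbelianSchemePropertyBundle K f)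
    (g : ℕ) [SmoothOfRelativeDimension g f] : AbVar K where
  A := A
  f := f
  law := L
  comm := hc
  g := g
  smooth := inferInstance
  isProper := hA.proper
  connected := by
    have h := hA.connectedFibres (IsLocalRing.closedPoint K)
    have huniv : f.base ⁻¹' {IsLocalRing.closedPoint K} = Set.univ :=
      Set.eq_univ_of_forall fun a =>
        (Subsingleton.elim (α := (Spec (CommRingCat.of K) : AlgebraicGeometry.Scheme)) _ _ :)
    exact connectedSpace_iff_univ.mpr (huniv ▸ h)

lemma specStr_self : specStr K K = 𝟙 (Spec (CommRingCat.of K)) := Spec.map_id (CommRingCat.of K)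

lemma natCard_torsion_congr {A : AlgebraicGeometry.Scheme.{u}} {f : A ⟶ Spec (CommRingCat.of K)}
    (L : RelativeGroupLaw K f) (n : ℕ) {t t' : Spec (CommRingCat.of K) ⟶ Spec (CommRingCat.of K)}
    (h : t = t') :
    Nat.card {x : SchemeHomOver t f // L.IsTorsionPoint t n x} =
      Nat.card {x : SchemeHomOver t' f // L.IsTorsionPoint t' n x} := by
  subst h; rfl

/-- Torsion sections are the torsion points with values in the base field. -/
theorem AbVar.natCard_isTorsionPoint (V : AbVar K) (n : ℕ) :
    Nat.card {x : SchemeHomOver (𝟙 (Spec (CommRingCat.of K))) V.f //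
        V.law.IsTorsionPoint (𝟙 (Spec (CommRingCat.of K))) n x} =
      Nat.card {t : V.Point K // n • t = 0} := by
  rw [natCard_torsion_congr V.law n (specStr_self (K := K)).symm]
  refine Nat.card_congr (Equiv.subtypeEquivRight fun x => ?_)
  rw [V.nsmul_eq, V.zero_def]
  rfl

end Fermat.Agent.AV

end
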