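import Fermat.Agent.AV.Scheme.Data
import Fermat.Agent.AV.Local.Chart
import Fermat.Agent.AV.Count
import Fermat.Agent.AV.Height
import Fermat.Agent.AV.Scheme.Bridge

/-!
# The points functor of an abelian variety over an algebraically closed field
-/

set_option autoImplicit false

noncomputable section

open CategoryTheory AlgebraicGeometry
open Fermat.Agent.Row27

namespace Fermat.Agent.AV.AbVar

universe u

variable {K : Type u} [Field K] [IsAlgClosed K] (V : AbVar K)

/-- Generic points are conjugate. -/
lemma exists_red_eq {L L' : Type u} [Field L] [Algebra K L] [Field L'] [Algebra K L']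
    [IsAlgClosed L'] (x : V.Point L) (y : V.Point L')
    (hx : ∃ v : Fin V.g → L, AlgebraicIndependent K v ∧ ∀ i, v i ∈ V.imgField x)
    (hy : ∃ v : Fin V.g → L', AlgebraicIndependent K v ∧ ∀ i, v i ∈ V.imgField y)
    (halg : ∀ z : L, IsAlgebraic (V.imgField x) z) :
    ∃ e : L →ₐ[K] L', V.red (Spec.ofAlgHom e) x = y := by
  obtain ⟨p⟩ : Nonempty V.A := inferInstance
  obtain ⟨U, hU, hp, -⟩ := V.exists_etale_chart p
  let := V.chartAlgebra U
  have : Nonempty U := ⟨⟨p, hp⟩⟩
  obtain ⟨v, hv, hvx⟩ := hx
  obtain ⟨a, ha, rfl⟩ := V.exists_injective_chart hU x v hv hvx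
  obtain ⟨w, hw, hwy⟩ := hy
  obtain ⟨b, hb, rfl⟩ := V.exists_injective_chart hU y w hw hwy
  obtain ⟨e, he⟩ := V.exists_pull_ofChart_eq hU a b ha hb halg
  exact ⟨e, (V.red_ofAlgHom e _).trans he⟩

/-- The points functor of an abelian variety. -/
def toData : AVData K :=
  V.toDataOf (fun x v hv => V.not_independent_imgField x v hv)
    fun x y hx hy halg => V.exists_red_eq x y hx hy halg

/-- The torsion sections count as the torsion of the points functor. -/
theorem natCard_isTorsionPoint_of_sumCurves (S : SumCurves V.toData)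
    (hT : Nonempty (TraceData V.toData S)) (n : ℕ) (hn : (n : K) ≠ 0) :
    Nat.card {t : V.toData.Pt K // n • t = 0} = n ^ (2 * V.g) := by
  obtain ⟨P⟩ := hT
  obtain ⟨H⟩ := exists_heightData S P
  exact V.toData.natCard_nsmul_eq_zero H n hn

end Fermat.Agent.AV.AbVar

end
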