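import Mathlib.AlgebraicGeometry.ValuativeCriterion
import Mathlib.AlgebraicGeometry.ResidueField
import Fermat.Prelude.Def_JacJ1Iface
import Fermat.Prelude.Def_GoodReductionJacobian_RelativeGroupLawKernel
import Fermat.Agent.Row27.Interface

/-!
# Points of an abelian variety with values in algebras

`AbVar K` bundles a proper smooth connected commutative group scheme of relative dimension `g`
over a field. `AbVar.Point V R` is the group of points with values in a `K`-algebra `R`,
`AbVar.pull` its functoriality and `AbVar.imgField` the field of definition of a field valued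
point.
-/

set_option autoImplicit false

noncomputable section

open CategoryTheory CategoryTheory.Limits AlgebraicGeometry NeronModelInfra GoodReductionJacobian

namespace Fermat.Agent.AV

universe u

variable (K : Type u) [Field K]

/-- A proper smooth connected commutative group scheme over a field. -/
structure AbVar where
  A : AlgebraicGeometry.Scheme.{u}
  f : A ⟶ Spec (CommRingCat.of K)
  law : RelativeGroupLaw K f
  comm : law.IsCommutative
  g : ℕ
  smooth : SmoothOfRelativeDimension g f
  isProper : IsProper f
  connected : ConnectedSpace A

attribute [instance] AbVar.smooth AbVar.isProper AbVar.connected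

/-- The structure map of the spectrum of an algebra. -/
abbrev specStr (R : Type u) [CommRing R] [Algebra K R] :
    Spec (CommRingCat.of R) ⟶ Spec (CommRingCat.of K) :=
  Spec.map (CommRingCat.ofHom (algebraMap K R))

variable {K}

namespace AbVar

variable (V : AbVar K) (R : Type u) [CommRing R] [Algebra K R]

/-- The points with values in an algebra. -/
abbrev Point : Type u := SchemeHomOver (specStr K R) V.f

instance : Add (V.Point R) := ⟨V.law.mul _⟩

instance : Zero (V.Point R) := ⟨V.law.one _⟩

instance : Neg (V.Point R) := ⟨V.law.inv _⟩

instance : AddCommGroup (V.Point R) :=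
  { add_assoc := V.law.mul_assoc _
    zero_add := V.law.one_mul _
    add_zero := V.law.mul_one _
    neg_add_cancel := V.law.inv_mul_cancel _
    add_comm := V.comm _
    nsmul := nsmulRec
    zsmul := zsmulRec }

lemma add_def (x y : V.Point R) : x + y = V.law.mul _ x y := rfl

lemma zero_def : (0 : V.Point R) = V.law.one _ := rfl

lemma nsmul_eq (n : ℕ) (x : V.Point R) : n • x = V.law.nsmul _ n x := by
  induction n with
  | zero => rw [zero_smul, RelativeGroupLaw.nsmul_zero, zero_def]
  | succ n ih => rw [succ_nsmul, ih, RelativeGroupLaw.nsmul_succ, add_def]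

variable {R} {R' : Type u} [CommRing R'] [Algebra K R'] {R'' : Type u} [CommRing R'']
    [Algebra K R'']

lemma specMap_str (φ : R →ₐ[K] R') :
    Spec.map (CommRingCat.ofHom φ.toRingHom) ≫ specStr K R = specStr K R' := by
  rw [← Spec.map_comp, ← CommRingCat.ofHom_comp]
  exact congrArg (fun g => Spec.map (CommRingCat.ofHom g)) φ.comp_algebraMap

/-- The image of a point under a map of algebras. -/
def pull (φ : R →ₐ[K] R') : V.Point R →+ V.Point R' :=
  AddMonoidHom.mk' (schemeHomOverComp (Spec.map (CommRingCat.ofHom φ.toRingHom)) (specMap_str φ))
    fun x y => V.law.mul_natural _ _ _ _ x y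

lemma pull_coe (φ : R →ₐ[K] R') (x : V.Point R) :
    (V.pull φ x).1 = Spec.map (CommRingCat.ofHom φ.toRingHom) ≫ x.1 := rfl

lemma pull_pull (φ : R →ₐ[K] R') (ψ : R' →ₐ[K] R'') (x : V.Point R) :
    V.pull ψ (V.pull φ x) = V.pull (ψ.comp φ) x := by
  refine Subtype.ext ?_
  rw [pull_coe, pull_coe, pull_coe, ← Category.assoc, ← Spec.map_comp, ← CommRingCat.ofHom_comp]
  rfl

lemma pull_id (x : V.Point R) : V.pull (AlgHom.id K R) x = x := by
  refine Subtype.ext ?_
  rw [pull_coe, show CommRingCat.ofHom (AlgHom.id K R).toRingHom = 𝟙 (CommRingCat.of R) from rfl,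
    Spec.map_id, Category.id_comp]

/-- The field of definition of a field valued point. -/
def imgField {L : Type u} [Field L] [Algebra K L] (x : V.Point L) : IntermediateField K L :=
  IntermediateField.adjoin K (Set.range (Scheme.stalkClosedPointTo x.1).hom)

end AbVar

end Fermat.Agent.AV

end
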