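import Fermat.Agent.AV.Scheme.Field
import Fermat.Agent.Row27.Points

/-!
# Conjugation of points of an affine chart
-/

set_option autoImplicit false

noncomputable section

open CategoryTheory CategoryTheory.Limits AlgebraicGeometry

namespace Fermat.Agent.AV.AbVar

universe u

variable {K : Type u} [Field K] (V : AbVar K) {L L' : Type u} [Field L] [Algebra K L] [Field L']
  [Algebra K L'] [IsAlgClosed L']

/-- Two injective chart points are conjugate when the first field is algebraic over the
coordinates. -/
lemma exists_pull_ofChart_eq {U : V.A.Opens} (hU : IsAffineOpen U)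
    (a : letI := V.chartAlgebra U; Γ(V.A, U) →ₐ[K] L)
    (b : letI := V.chartAlgebra U; Γ(V.A, U) →ₐ[K] L')
    (ha : Function.Injective (letI := V.chartAlgebra U; ⇑a))
    (hb : Function.Injective (letI := V.chartAlgebra U; ⇑b))
    (halg : ∀ z : L, IsAlgebraic (V.imgField (V.ofChart hU a)) z) :
    ∃ e : L →ₐ[K] L', V.pull e (V.ofChart hU a) = V.ofChart hU b := by
  let := V.chartAlgebra U
  let := a.toRingHom.toAlgebra
  have : IsScalarTower K Γ(V.A, U) L := IsScalarTower.of_algebraMap_eq fun c => (a.commutes c).symm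
  have : IsDomain Γ(V.A, U) := Function.Injective.isDomain a.toRingHom ha
  have : FaithfulSMul Γ(V.A, U) L := (faithfulSMul_iff_algebraMap_injective _ _).mpr ha
  have : Algebra.IsAlgebraic Γ(V.A, U) L := ⟨fun z => by
    have h1 := halg z
    rw [V.imgField_ofChart hU a] at h1
    have h2 := (IntermediateField.isAlgebraic_adjoin_iff (F := K)).mp h1
    have hle : Algebra.adjoin K (Set.range a) = a.range := by
      rw [← AlgHom.coe_range, Algebra.adjoin_eq]
    rw [hle] at h2
    let e : Γ(V.A, U) ≃ₐ[K] a.range := AlgEquiv.ofInjective a ha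
    obtain ⟨p, hp0, hp⟩ := h2
    refine ⟨p.map e.symm.toAlgHom.toRingHom,
      (Polynomial.map_ne_zero_iff e.symm.injective).mpr hp0, ?_⟩
    have hcomp : (algebraMap Γ(V.A, U) L).comp e.symm.toAlgHom.toRingHom = algebraMap a.range L :=
      RingHom.ext fun r => congrArg Subtype.val (e.apply_symm_apply r)
    rw [Polynomial.aeval_def, Polynomial.eval₂_map, hcomp]
    exact hp⟩
  obtain ⟨τ, hτ⟩ := Fermat.Agent.Row27.exists_extend (S := L) b.toRingHom hb
  refine ⟨{ τ with commutes' := fun c => ?_ }, ?_⟩
  · show τ (algebraMap K L c) = _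
    rw [IsScalarTower.algebraMap_apply K Γ(V.A, U) L]
    exact (hτ _).trans (b.commutes c)
  · rw [pull_ofChart]
    exact congrArg (V.ofChart hU) (AlgHom.ext hτ)

end Fermat.Agent.AV.AbVar

end
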