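import Fermat.Agent.AV.Scheme.Field
import Fermat.Agent.Row27.Retraction

/-!
# Rigidity

A point all whose specialisations over an algebraically closed field `L` specialise further to `0`
is defined over `L`: it lies in an affine chart at `0` with coordinates in every valuation ring
containing `L`.
-/

set_option autoImplicit false

noncomputable section

open CategoryTheory CategoryTheory.Limits AlgebraicGeometry NeronModelInfra GoodReductionJacobian
open IsLocalRing Fermat.Agent.Row27

namespace Fermat.Agent.AV.AbVar

universe u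

variable {K : Type u} [Field K] (V : AbVar K)

section Residue

variable {M : Type u} [Field M] [Algebra K M] (A : ValuationSubring M) (hA : TrivOn K A)

/-- The residue field of a valuation ring trivial on `K`, as an algebra over `K`. -/
@[reducible]
def residueAlgebra : Algebra K (IsLocalRing.ResidueField A) :=
  ((IsLocalRing.residue A).comp ((algebraMap K M).codRestrict A.toSubring hA)).toAlgebra

/-- Specialisation to the residue field of a valuation ring. -/
def residueSpec :
    letI := residueAlgebra A hA
    Spec K M (IsLocalRing.ResidueField A) :=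
  letI := residueAlgebra A hA
  { dom := A
    trivOn := hA
    map := IsLocalRing.residue A
    map_algebraMap := fun _ => rfl
    map_eq_zero := fun z => by
      rw [IsLocalRing.residue_eq_zero_iff, IsLocalRing.mem_maximalIdeal, mem_nonunits_iff] }

end Residue

variable {L L' : Type u} [Field L] [Algebra K L] [Field L'] [Algebra K L']

/-- The whole lift lies in an open set containing the specialisation. -/
lemma range_lift_subset (φ : Spec K L L') (x : V.Point L) (U : V.A.Opens)
    (h : (V.red φ x).1 (closedPoint L') ∈ U) : Set.range (V.lift φ x).1 ⊆ (U : Set V.A) := by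
  change (V.lift φ x).1
    (AlgebraicGeometry.Spec.map (CommRingCat.ofHom (domMap φ).toRingHom) (closedPoint L')) ∈ U at h
  set q : PrimeSpectrum φ.dom :=
    AlgebraicGeometry.Spec.map (CommRingCat.ofHom (domMap φ).toRingHom) (closedPoint L') with hq
  have hqc : q = closedPoint φ.dom := by
    refine PrimeSpectrum.ext ?_
    ext z
    show φ.map z ∈ (closedPoint L').asIdeal ↔ z ∈ IsLocalRing.maximalIdeal φ.dom
    rw [show (closedPoint L').asIdeal = IsLocalRing.maximalIdeal L' from rfl,
      IsLocalRing.maximalIdeal_eq_bot, Ideal.mem_bot, φ.map_eq_zero, IsLocalRing.mem_maximalIdeal,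
      mem_nonunits_iff]
  let W : TopologicalSpace.Opens (PrimeSpectrum φ.dom) := (V.lift φ x).1 ⁻¹ᵁ U
  have hW : W = ⊤ := IsLocalRing.closed_point_mem_iff.mp (by rw [← hqc]; exact h)
  rintro _ ⟨p, rfl⟩
  have : (p : PrimeSpectrum φ.dom) ∈ W := hW ▸ trivial
  exact this

/-- A point specialising to `0` lies in every chart at `0`. -/
lemma mem_of_red_eq_zero (φ : Spec K L L') (x : V.Point L) (U : V.A.Opens)
    (h0 : (0 : V.Point K).1 (closedPoint K) ∈ U)
    (h : V.red φ x = 0) : x.1 (closedPoint L) ∈ U := by
  have hz : (0 : V.Point L').1 (closedPoint L') ∈ U := by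
    rw [show (0 : V.Point L') = V.pull (Algebra.ofId K L') 0 from (map_zero _).symm]
    change (0 : V.Point K).1
      (AlgebraicGeometry.Spec.map (CommRingCat.ofHom (Algebra.ofId K L').toRingHom)
        (closedPoint L')) ∈ U
    exact (congrArg (fun p => (0 : V.Point K).1 p ∈ U)
      (Subsingleton.elim (α := PrimeSpectrum K) _ (closedPoint K))).mpr h0
  have h1 := V.range_lift_subset φ x U (by rw [h]; exact hz)
  have e := congrArg Subtype.val (V.pull_lift φ x)
  rw [← e]
  change (V.lift φ x).1
    (AlgebraicGeometry.Spec.map (CommRingCat.ofHom (domVal φ).toRingHom) (closedPoint L)) ∈ U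
  exact h1 ⟨_, rfl⟩

/-- A point all whose specialisations over `L` specialise further to `0` is defined over `L`. -/
theorem rigid {M : Type u} [Field M] [Algebra K M] [IsAlgClosed L]
    (ψ : L →ₐ[K] M) (x : V.Point M)
    (h : ∀ (L' : Type u) [Field L'] [Algebra K L'] (φ : Spec K M L'), (∀ l, ψ l ∈ φ.dom) →
      ∃ (L'' : Type u) (_ : Field L'') (_ : Algebra K L'') (φ' : Spec K L' L''),
        V.red φ' (V.red φ x) = 0) :
    V.imgField x ≤ ψ.fieldRange := by
  obtain ⟨_, ⟨U, hU, rfl⟩, h0, -⟩ := V.A.isBasis_affineOpens.exists_subset_of_mem_open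
    (Set.mem_univ ((0 : V.Point K).1 (closedPoint K))) isOpen_univ
  replace hU : IsAffineOpen U := hU
  have hx : x.1 (closedPoint M) ∈ U := by
    obtain ⟨L'', _, _, φ', h'⟩ := h M (Spec.ofAlgHom (AlgHom.id K M))
      fun _ => ValuationSubring.mem_top _
    rw [V.red_id] at h'
    exact V.mem_of_red_eq_zero φ' x U h0 h'
  obtain ⟨a, rfl⟩ := V.exists_ofChart hU x (by
    rintro _ ⟨p, rfl⟩
    rwa [Subsingleton.elim p (closedPoint M)])
  let := V.chartAlgebra U
  rw [V.imgField_ofChart, IntermediateField.adjoin_le_iff]
  rintro _ ⟨r, rfl⟩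
  obtain ⟨l, hl⟩ := mem_range_of_forall_valuation ψ (z := a r) fun B hB hψ => by
    let := residueAlgebra B hB
    obtain ⟨L'', _, _, φ', h'⟩ := h (IsLocalRing.ResidueField B) (residueSpec B hB) hψ
    set φ := residueSpec B hB with hφ
    have h1 := V.mem_of_red_eq_zero φ' _ U h0 h'
    obtain ⟨b, hb⟩ := V.exists_ofChart hU (V.lift φ (V.ofChart hU a))
      (V.range_lift_subset φ _ U h1)
    have h2 := V.pull_lift φ (V.ofChart hU a)
    rw [← hb, pull_ofChart] at h2
    have h3 := DFunLike.congr_fun (V.ofChart_injective hU h2) r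
    rw [← h3, B.valuation_le_one_iff]
    exact (b r).2
  exact ⟨l, hl⟩

end Fermat.Agent.AV.AbVar

end
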