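import Fermat.Agent.AV.Scheme.Field
import Fermat.Agent.Row25.AV.Tangent
import Mathlib.FieldTheory.IntermediateField.Adjoin.Algebra
import Mathlib.FieldTheory.Separable

/-!
# Multiplication by an integer invertible in the base field is separable
-/

set_option autoImplicit false

noncomputable section

open CategoryTheory AlgebraicGeometry NeronModelInfra GoodReductionJacobian
open Fermat.Agent.Row25.AV

namespace Fermat.Agent.AV.AbVar

universe u

variable {K : Type u} [Field K] (V : AbVar K)

section Residue

variable {F : Type u} [Field F] [Algebra K F]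

lemma mem_residueSubfield_iff (x : V.Point F) (a : F) :
    a ∈ Tangent.residueSubfield (f := V.f) x ↔
      a ∈ Set.range (Scheme.stalkClosedPointTo x.1).hom := by
  constructor
  · rintro ⟨r, rfl⟩
    obtain ⟨s, rfl⟩ := IsLocalRing.residue_surjective r
    exact ⟨s, rfl⟩
  · rintro ⟨s, rfl⟩
    exact ⟨IsLocalRing.residue _ s, rfl⟩

lemma derivation_eq_zero_on_imgField {n : ℕ} (hn : (n : K) ≠ 0) (y : V.Point F)
    (Dr : Derivation K F F) (h : ∀ a ∈ V.imgField (n • y), Dr a = 0) :
    ∀ a ∈ V.imgField y, Dr a = 0 := by
  have key : ∀ a ∈ Set.range (Scheme.stalkClosedPointTo y.1).hom, Dr a = 0 := fun a ha =>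
    Tangent.derivation_eq_zero_of_base V.law V.comm hn Dr y (fun b hb => h b (by
      rw [nsmul_eq]
      exact IntermediateField.subset_adjoin K _ ((V.mem_residueSubfield_iff _ b).mp hb)))
      a ((V.mem_residueSubfield_iff y a).mpr ha)
  intro a ha
  induction ha using IntermediateField.adjoin_induction with
  | mem b hb => exact key b hb
  | algebraMap c => exact Dr.map_algebraMap c
  | add b c _ _ hb hc => rw [map_add, hb, hc, add_zero]
  | inv b _ hb => rw [Derivation.leibniz_inv, hb, smul_zero]
  | mul b c _ _ hb hc => rw [Derivation.leibniz, hb, hc, smul_zero, smul_zero, add_zero]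

lemma formallyUnramified_imgField {n : ℕ} (hn : (n : K) ≠ 0) (y : V.Point F)
    (hy : V.imgField y = ⊤) : Algebra.FormallyUnramified (V.imgField (n • y)) F := by
  refine ⟨?_⟩
  rw [← not_nontrivial_iff_subsingleton]
  intro hnt
  set E := V.imgField (n • y)
  obtain ⟨ω, hω⟩ := exists_ne (0 : Ω[F⁄E])
  obtain ⟨φ, hφ⟩ : ∃ φ : Module.Dual F Ω[F⁄E], φ ω ≠ 0 := by
    by_contra h
    push Not at h
    exact hω ((Module.forall_dual_apply_eq_zero_iff F ω).mp h)
  set Dr : Derivation E F F := KaehlerDifferential.linearMapEquivDerivation E F φ with hD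
  have h0 : Dr = 0 := by
    ext a
    refine V.derivation_eq_zero_on_imgField hn y (Dr.restrictScalars K) (fun b hb => ?_) a
      (hy ▸ IntermediateField.mem_top)
    exact Dr.map_algebraMap ⟨b, hb⟩
  have h1 : φ = 0 := (KaehlerDifferential.linearMapEquivDerivation E F).injective
    (by rw [map_zero]; exact h0)
  exact hφ (by rw [h1]; rfl)

end Residue

variable {L : Type u} [Field L] [Algebra K L]

/-- Separability over a subfield passes to its image. -/
lemma isSeparable_map_val (F : IntermediateField K L) (E : IntermediateField K F)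
    (E' : IntermediateField K L) (h : E.map F.val ≤ E') (w : F) (hw : IsSeparable E w) :
    IsSeparable E' (w : L) := by
  let e : E →+* E' :=
    (F.val.toRingHom.comp E.val.toRingHom).codRestrict E'.toSubfield.toSubring
      fun a => h ⟨(a : F), a.2, rfl⟩
  let := e.toAlgebra
  have : IsScalarTower E E' L := IsScalarTower.of_algebraMap_eq fun _ => rfl
  let ι : F →ₐ[E] L := { F.val.toRingHom with commutes' := fun _ => rfl }
  exact IsSeparable.tower_top E' (hw.map ι (fun a b hab => Subtype.ext hab))

/-- Multiplication by an integer invertible in the base field is separable. -/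
theorem isSeparable_nsmul (n : ℕ) (hn : (n : K) ≠ 0) (x : V.Point L) (z : L)
    (hz : z ∈ V.imgField x) : IsSeparable (V.imgField (n • x)) z := by
  obtain ⟨y, hy⟩ := V.exists_pull_imgField x
  have hytop : V.imgField y = ⊤ := by
    refine IntermediateField.map_injective (V.imgField x).val ?_
    rw [← V.imgField_pull, hy, ← AlgHom.fieldRange_eq_map, IntermediateField.fieldRange_val]
  have := V.formallyUnramified_imgField hn y hytop
  have : Algebra.EssFiniteType K (V.imgField x) :=
    IntermediateField.essFiniteType_iff.mpr (V.imgField_fg x)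
  have : Algebra.EssFiniteType (V.imgField (n • y)) (V.imgField x) :=
    Algebra.EssFiniteType.of_comp K _ (V.imgField x)
  have hsep := Algebra.FormallyUnramified.isSeparable (V.imgField (n • y)) (V.imgField x)
  refine isSeparable_map_val _ (V.imgField (n • y)) _ (le_of_eq ?_) ⟨z, hz⟩
    (Algebra.IsSeparable.isSeparable _ _)
  rw [← V.imgField_pull, map_nsmul, hy]

end Fermat.Agent.AV.AbVar

end
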