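import Fermat.Agent.AV.Interface
import Fermat.Agent.AV.Scheme.Conj
import Fermat.Agent.AV.Scheme.Separable
import Fermat.Agent.AV.Scheme.Rigid

/-!
# The points functor of an abelian variety
-/

set_option autoImplicit false

noncomputable section

open CategoryTheory CategoryTheory.Limits AlgebraicGeometry
open Fermat.Agent.Row27

namespace Fermat.Agent.AV.AbVar

universe u

variable {K : Type u} [Field K] (V : AbVar K) {L L' : Type u} [Field L] [Algebra K L] [Field L']
  [Algebra K L']

lemma red_ofAlgHom_injective (ψ : L →ₐ[K] L') : Function.Injective (V.red (Spec.ofAlgHom ψ)) := by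
  intro x y h
  rw [V.red_ofAlgHom, V.red_ofAlgHom] at h
  exact V.pull_injective ψ h

lemma exists_red_imgField (x : V.Point L) :
    ∃ y : V.Point (V.imgField x), V.red (Spec.ofAlgHom (V.imgField x).val) y = x := by
  obtain ⟨y, hy⟩ := V.exists_pull_imgField x
  exact ⟨y, (V.red_ofAlgHom _ y).trans hy⟩

lemma imgField_red (ψ : L →ₐ[K] L') (x : V.Point L) :
    V.imgField (V.red (Spec.ofAlgHom ψ) x) = (V.imgField x).map ψ := by
  rw [V.red_ofAlgHom, V.imgField_pull]

lemma eqOn_red (σ τ : L →ₐ[K] L') (x : V.Point L)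
    (h : V.red (Spec.ofAlgHom σ) x = V.red (Spec.ofAlgHom τ) x) :
    ∀ z ∈ V.imgField x, σ z = τ z := by
  rw [V.red_ofAlgHom, V.red_ofAlgHom] at h
  exact V.eqOn_imgField σ τ x h

/-- The points functor, from the bound on transcendence degrees and conjugacy of generic
points. -/
def toDataOf
    (hdeg : ∀ {L : Type u} [Field L] [Algebra K L] (x : V.Point L) (v : Fin (V.g + 1) → L),
      (∀ i, v i ∈ V.imgField x) → ¬ AlgebraicIndependent K v)
    (hconj : ∀ {L L' : Type u} [Field L] [Algebra K L] [Field L'] [Algebra K L']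
      [IsAlgClosed L'] (x : V.Point L) (y : V.Point L'),
      (∃ v : Fin V.g → L, AlgebraicIndependent K v ∧ ∀ i, v i ∈ V.imgField x) →
      (∃ v : Fin V.g → L', AlgebraicIndependent K v ∧ ∀ i, v i ∈ V.imgField y) →
      (∀ z : L, IsAlgebraic (V.imgField x) z) →
      ∃ e : L →ₐ[K] L', V.red (Spec.ofAlgHom e) x = y) :
    AVData K where
  g := V.g
  Pt L _ _ := V.Point L
  instPt _ _ _ := inferInstance
  red φ := V.red φ
  red_id x := V.red_id x
  red_trans φ φ' χ h x := V.red_trans φ φ' χ h x
  defField x := V.imgField x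
  defField_fg x := V.imgField_fg x
  exists_red_defField x := V.exists_red_imgField x
  defField_red ψ x := V.imgField_red ψ x
  red_ofAlgHom_injective ψ := V.red_ofAlgHom_injective ψ
  eqOn_defField σ τ x h := V.eqOn_red σ τ x h
  not_independent x v := hdeg x v
  exists_red_eq x y := hconj x y
  isSeparable_nsmul n hn x z hz := V.isSeparable_nsmul n hn x z hz
  rigid ψ x h := V.rigid ψ x h

end Fermat.Agent.AV.AbVar

end
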