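import Fermat.Agent.AV.Scheme.Basic

/-!
# Specialisation of points along valuation rings

A point with values in a field extends uniquely to a point with values in every valuation ring
trivial on the base field, by the valuative criterion.
-/

set_option autoImplicit false

noncomputable section

open CategoryTheory CategoryTheory.Limits AlgebraicGeometry NeronModelInfra GoodReductionJacobian
open Fermat.Agent.Row27

namespace Fermat.Agent.AV.AbVar

universe u

variable {K : Type u} [Field K] (V : AbVar K) {L L' L'' : Type u} [Field L] [Algebra K L] [Field L']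
  [Algebra K L'] [Field L''] [Algebra K L'']

instance domAlgebra (φ : Spec K L L') : Algebra K φ.dom :=
  ((algebraMap K L).codRestrict φ.dom.toSubring φ.trivOn).toAlgebra

/-- The inclusion of the valuation ring of a specialisation. -/
def domVal (φ : Spec K L L') : φ.dom →ₐ[K] L :=
  { φ.dom.subtype with commutes' := fun _ => rfl }

/-- The residue map of a specialisation. -/
def domMap (φ : Spec K L L') : φ.dom →ₐ[K] L' :=
  { φ.map with commutes' := φ.map_algebraMap }

lemma existsUnique_lift (φ : Spec K L L') (x : V.Point L) :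
    ∃! y : V.Point φ.dom, V.pull (domVal φ) y = x := by
  have hP : IsProper V.f := V.isProper
  rw [IsProper.eq_valuativeCriterion] at hP
  obtain ⟨⟨⟨hvc, -⟩, -⟩, -⟩ := hP
  have hcomm : CommSq x.1 (AlgebraicGeometry.Spec.map (CommRingCat.ofHom (algebraMap φ.dom L))) V.f
      (specStr K φ.dom) := ⟨by
    rw [x.2, ← AlgebraicGeometry.Spec.map_comp]
    rfl⟩
  let S : ValuativeCommSq V.f :=
    { R := φ.dom, K := L, i₁ := x.1, i₂ := specStr K φ.dom, commSq := hcomm }
  obtain ⟨hu⟩ := hvc S
  refine ⟨⟨hu.default.l, hu.default.fac_right⟩, Subtype.ext hu.default.fac_left, fun y hy => ?_⟩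
  have h := hu.uniq ⟨y.1, congrArg Subtype.val hy, y.2⟩
  exact Subtype.ext (congrArg CommSq.LiftStruct.l h :)

/-- The extension of a point to the valuation ring. -/
def lift (φ : Spec K L L') (x : V.Point L) : V.Point φ.dom := (V.existsUnique_lift φ x).choose

lemma pull_lift (φ : Spec K L L') (x : V.Point L) : V.pull (domVal φ) (V.lift φ x) = x :=
  (V.existsUnique_lift φ x).choose_spec.1

lemma eq_lift (φ : Spec K L L') {x : V.Point L} {y : V.Point φ.dom}
    (h : V.pull (domVal φ) y = x) : y = V.lift φ x :=
  (V.existsUnique_lift φ x).choose_spec.2 y h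

lemma lift_add (φ : Spec K L L') (x y : V.Point L) :
    V.lift φ (x + y) = V.lift φ x + V.lift φ y :=
  (V.eq_lift φ (by rw [map_add, pull_lift, pull_lift])).symm

/-- Specialisation of points. -/
def red (φ : Spec K L L') : V.Point L →+ V.Point L' :=
  AddMonoidHom.mk' (fun x => V.pull (domMap φ) (V.lift φ x))
    fun x y => by rw [lift_add, map_add]

lemma red_def (φ : Spec K L L') (x : V.Point L) :
    V.red φ x = V.pull (domMap φ) (V.lift φ x) := rfl

/-- Specialisation of a point that is defined over the valuation ring. -/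
lemma red_pull (φ : Spec K L L') (y : V.Point φ.dom) :
    V.red φ (V.pull (domVal φ) y) = V.pull (domMap φ) y := by
  rw [red_def, ← V.eq_lift φ rfl]

/-- The image under an embedding is the pullback. -/
lemma red_ofAlgHom (ψ : L →ₐ[K] L') (x : V.Point L) :
    V.red (Spec.ofAlgHom ψ) x = V.pull ψ x := by
  let i : L →ₐ[K] (Spec.ofAlgHom ψ).dom :=
    { toFun := fun z => ⟨z, ValuationSubring.mem_top z⟩
      map_one' := rfl
      map_mul' := fun _ _ => rfl
      map_zero' := rfl
      map_add' := fun _ _ => rfl
      commutes' := fun _ => rfl }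
  have h : V.pull (domVal (Spec.ofAlgHom ψ)) (V.pull i x) = x := by
    rw [pull_pull]
    exact V.pull_id x
  rw [red_def, ← V.eq_lift _ h, pull_pull]
  rfl

lemma red_id (x : V.Point L) : V.red (Spec.ofAlgHom (AlgHom.id K L)) x = x :=
  (V.red_ofAlgHom _ x).trans (V.pull_id x)

lemma red_trans (φ : Spec K L L') (φ' : Spec K L' L'') (χ : Spec K L L'')
    (h : ∀ z : χ.dom, ∃ (h : (z : L) ∈ φ.dom) (h' : φ.map ⟨z, h⟩ ∈ φ'.dom),
      φ'.map ⟨φ.map ⟨z, h⟩, h'⟩ = χ.map z) (x : V.Point L) :
    V.red φ' (V.red φ x) = V.red χ x := by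
  choose hd hd' hval using h
  let i : χ.dom →ₐ[K] φ.dom :=
    { toFun := fun z => ⟨z, hd z⟩
      map_one' := rfl
      map_mul' := fun _ _ => rfl
      map_zero' := rfl
      map_add' := fun _ _ => rfl
      commutes' := fun _ => rfl }
  let j : χ.dom →ₐ[K] φ'.dom :=
    { toFun := fun z => ⟨φ.map ⟨z, hd z⟩, hd' z⟩
      map_one' := Subtype.ext (map_one φ.map)
      map_mul' := fun a b => Subtype.ext (map_mul φ.map ⟨a, hd a⟩ ⟨b, hd b⟩)
      map_zero' := Subtype.ext (map_zero φ.map)
      map_add' := fun a b => Subtype.ext (map_add φ.map ⟨a, hd a⟩ ⟨b, hd b⟩)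
      commutes' := fun c => Subtype.ext (φ.map_algebraMap c) }
  have h1 : V.lift φ x = V.pull i (V.lift χ x) := by
    refine (V.eq_lift φ ?_).symm
    rw [pull_pull]
    exact V.pull_lift χ x
  have h2 : V.red φ x = V.pull (domVal φ') (V.pull j (V.lift χ x)) := by
    rw [red_def, h1, pull_pull, pull_pull]
    rfl
  rw [h2, red_pull, pull_pull, red_def]
  congr 2
  exact AlgHom.ext hval

lemma pull_injective (ψ : L →ₐ[K] L') : Function.Injective (V.pull ψ) := by
  intro x y h
  have hs : Function.Surjective (AlgebraicGeometry.Spec.map (CommRingCat.ofHom ψ.toRingHom)) := fun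
      p =>
    ⟨IsLocalRing.closedPoint L', Subsingleton.elim _ _⟩
  have : AlgebraicGeometry.Surjective (AlgebraicGeometry.Spec.map (CommRingCat.ofHom ψ.toRingHom))
      :=
    ⟨hs⟩
  have : Flat (AlgebraicGeometry.Spec.map (CommRingCat.ofHom ψ.toRingHom)) := by
    rw [HasRingHomProperty.Spec_iff (P := @Flat)]
    algebraize [ψ.toRingHom]
    exact (inferInstance : Module.Flat L L')
  exact Subtype.ext ((cancel_epi (AlgebraicGeometry.Spec.map (CommRingCat.ofHom ψ.toRingHom))).mp
    (congrArg Subtype.val h))

end Fermat.Agent.AV.AbVar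

end
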